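import Fermat.Agent.S28.Defs

/-!
# S36 engine / cell REG (regularity at the supersingular points) — frozen leaf statements
(helper996; design: `origin/helper996:coord/S36.md` §6–§7)

Only the arithmetic leaf HASSE lives here; the commutative-algebra core is
`Fermat/Agent/S36/H996/PU.lean` (`principal_of_unit`, proved).

## HASSE
For a prime `q ≥ 5` write `q - 1 = 12 a + 4 δ + 6 ε` with `δ = [q ≡ 2 mod 3]`, `ε = [q ≡ 3 mod 4]`.
Then in `𝔽_q((t))`
  `Δ^{-(q-1)} = j^{4δ} (j - 1728)^{6ε} f(j)^{12}`   for some `f ∈ 𝔽_q[X]`.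
Proof: `E_{q-1} ≡ 1 mod q` (von Staudt–Clausen, `Bernoulli.vonStaudt_clausen` in Mathlib) and
`E_{q-1} = E₄^δ E₆^ε Δ^a f(j)` with `f ∈ ℤ_(q)[X]` (induction on the weight with
`ModularForm.discriminantEquiv`; `E₄³ = jΔ`, `E₆² = (j - 1728)Δ`); take 12-th powers.
Analytic ↔ formal bridges: `S28/H25`, `S28/H685`, `S28/H565`, `S28/Theta`.
-/

set_option autoImplicit false

noncomputable section

open ModularCurve

namespace Fermat.Agent.S36.Reg

/-- `δ = 1` iff `q ≡ 2 mod 3` (then `j = 0` is supersingular). -/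
def hasseDelta (q : ℕ) : ℕ := if q % 3 = 2 then 1 else 0

/-- `ε = 1` iff `q ≡ 3 mod 4` (then `j = 1728` is supersingular). -/
def hasseEps (q : ℕ) : ℕ := if q % 4 = 3 then 1 else 0

/-- **Leaf HASSE.** -/
def HasseStatement (q : ℕ) [NeZero q] : Prop :=
  ∃ f : Polynomial (ZMod q),
    (Fermat.Agent.S28.deltaInvL (ZMod q)) ^ (q - 1) =
      (jqModC (ZMod q)) ^ (4 * hasseDelta q) * (jqModC (ZMod q) - 1728) ^ (6 * hasseEps q)
        * (Polynomial.aeval (jqModC (ZMod q)) f) ^ 12

/-- The form in which HASSE is consumed: the same identity over any field of characteristic `q`. -/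
def HasseStatementField (q : ℕ) [NeZero q] (k : Type) [Field k] [CharP k q] : Prop :=
  ∃ f : Polynomial k,
    (Fermat.Agent.S28.deltaInvL k) ^ (q - 1) =
      (jqModC k) ^ (4 * hasseDelta q) * (jqModC k - 1728) ^ (6 * hasseEps q)
        * (Polynomial.aeval (jqModC k) f) ^ 12

end Fermat.Agent.S36.Reg
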